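import Fermat.Agent.EC.AtP.NodeGalois
import Fermat.Agent.EC.Multiplicative.Int

/-!
# Semistable curves: a reducible `E[p]` has a rational point or a cofixed line
-/

set_option autoImplicit false

namespace Fermat.Agent.EC.AtP

open WeierstrassCurve Fermat.Agent.Arith

/-- On a semistable curve, inertia moves points within their components. -/
theorem inertiaPreservesComponent_of_semistable (W : WeierstrassCurve ℤ) (hΔ : W.Δ ≠ 0)
    (hss : ∀ q : ℕ, q.Prime → ¬ ((q : ℤ) ∣ W.c₄ ∧ (q : ℤ) ∣ W.Δ)) :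
    InertiaPreservesComponent W := fun q hq _ hA _ hσ P =>
  Fermat.Agent.EC.Multiplicative.inE0_smul_sub_of_semistable hA hq hΔ (hss q hq) hσ P

/-- A semistable curve with reducible `E[p]`, `p` odd, has a rational point of order `p` or a
Galois stable cofixed line. -/
theorem rational_point_or_cofixedLine (W : WeierstrassCurve ℤ) {p : ℕ} (hΔ : W.Δ ≠ 0)
    (hss : ∀ q : ℕ, q.Prime → ¬ ((q : ℤ) ∣ W.c₄ ∧ (q : ℤ) ∣ W.Δ)) (hp : p.Prime) (hp2 : p ≠ 2)
    (hred : ¬ Affine.Point.GaloisRepIsIrreducible (K := AlgebraicClosure ℚ) ℚ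
      (W.map (Int.castRingHom ℚ)) p) :
    (∃ P : PointQBar W, P ≠ 0 ∧ p • P = 0 ∧ ∀ σ : GQ, σ • P = P) ∨
      Affine.Point.HasGaloisStableCofixedLine (K := AlgebraicClosure ℚ) ℚ
        (W.map (Int.castRingHom ℚ)) p := by
  have : (W.map (Int.castRingHom ℚ)).IsElliptic :=
    ⟨isUnit_iff_ne_zero.mpr (by rw [map_Δ, eq_intCast]; exact Int.cast_ne_zero.mpr hΔ)⟩
  by_cases h : ∀ P : PointQBar W, p • P = 0 → (∀ σ : GQ, σ • P = P) → P = 0
  · exact Or.inr (hasGaloisStableCofixedLine_of_reducible hp hp2 (hss p hp)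
      (inertiaPreservesComponent_of_semistable W hΔ hss) (e1TorsionFree p hp) h hred)
  · simp only [not_forall] at h
    obtain ⟨P, hP, hfix, hP0⟩ := h
    exact Or.inl ⟨P, hP0, hP, hfix⟩

end Fermat.Agent.EC.AtP
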