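import Fermat.Agent.EC.AtP.DivPoly
import Fermat.Agent.EC.Reduction.Hom
import Fermat.Agent.EC.Torsion.Galois
import Fermat.Agent.Arith.Places
import Fermat.Prelude.Def_FLTPrelim_GaloisRep

/-!
# The kernel of reduction on `E[p]` at a semistable place over `p`

If all of `E[p]` reduces to the origin at a place over the odd prime `p` and the integral equation
is semistable at `p`, the reversed `p`-division polynomial is Eisenstein, so every nonzero
`p`-torsion point has `|x| ^ ((p²-1)/2) = |p|⁻¹`, and no proper nontrivial subgroup of `E[p]` is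
stable under the Galois group of `ℚ`.
-/

set_option autoImplicit false

namespace Fermat.Agent.EC.AtP

open Polynomial WeierstrassCurve Fermat.Agent.Arith Fermat.Agent.EC.Reduction
open scoped WeierstrassCurve.Affine

variable {A : ValuationSubring QBar} {p : ℕ}

/-- Relative coefficient bound for a product of linear factors with roots outside `A`. -/
theorem coeff_prod_X_sub_C_div (s : Multiset QBar) (hs : ∀ x ∈ s, x ∉ A) :
    (s.map fun x => X - C x).prod.coeff 0 ≠ 0 ∧
    ∀ i, (s.map fun x => X - C x).prod.coeff (i + 1) /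
      (s.map fun x => X - C x).prod.coeff 0 ∈ A.nonunits := by
  induction s using Multiset.induction_on with
  | empty => simp [coeff_one]
  | cons x s ih =>
    obtain ⟨hx, hs⟩ := Multiset.forall_mem_cons.mp hs
    obtain ⟨h0, hi⟩ := ih hs
    have hx0 : x ≠ 0 := ne_zero_of_not_mem hx
    rw [Multiset.map_cons, Multiset.prod_cons]
    set g := (s.map fun x => X - C x).prod
    have e0 : ((X - C x) * g).coeff 0 = -x * g.coeff 0 := by
      rw [mul_coeff_zero]; simp
    refine ⟨by rw [e0]; exact mul_ne_zero (neg_ne_zero.mpr hx0) h0, fun i => ?_⟩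
    rw [e0, sub_mul, coeff_sub, coeff_X_mul, coeff_C_mul]
    have e : (g.coeff i - x * g.coeff (i + 1)) / (-x * g.coeff 0) =
        -(x⁻¹ * (g.coeff i / g.coeff 0)) + g.coeff (i + 1) / g.coeff 0 := by
      field_simp
      ring
    rw [e]
    refine nonunits_add (nonunits_neg (nonunits_mul_right (inv_mem_nonunits hx) ?_)) (hi i)
    cases i with
    | zero => rw [div_self h0]; exact one_mem A
    | succ i => exact mem_of_mem_nonunits (hi i)

/-- An integer polynomial, some coefficient prime to `p`, all of whose roots lie outside `A`, is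
constant modulo `p`. -/
theorem dvd_coeff_of_roots_notMem (hA : A.LiesOverPrime p) (hp : p.Prime) (f : ℤ[X])
    (hf : ∃ i, ¬ (p : ℤ) ∣ f.coeff i)
    (hroots : ∀ x : QBar, (f.map (Int.castRingHom QBar)).eval x = 0 → x ∉ A) :
    ¬ (p : ℤ) ∣ f.coeff 0 ∧ ∀ i, (p : ℤ) ∣ f.coeff (i + 1) := by
  set g := f.map (Int.castRingHom QBar) with hg
  have hgc : ∀ i, g.coeff i = (f.coeff i : QBar) := fun i => by simp [hg, coeff_map]
  obtain ⟨j, hj⟩ := hf
  have hprod : g = C g.leadingCoeff * (g.roots.map fun x => X - C x).prod :=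
    (IsAlgClosed.splits g).eq_prod_roots
  obtain ⟨h0, hi⟩ := coeff_prod_X_sub_C_div g.roots
    (fun x hx => hroots x (isRoot_of_mem_roots hx))
  have key : ∀ i, (f.coeff (i + 1) : QBar) = (f.coeff 0 : QBar) *
      ((g.roots.map fun x => X - C x).prod.coeff (i + 1) /
        (g.roots.map fun x => X - C x).prod.coeff 0) := by
    intro i
    rw [← hgc, ← hgc, hprod, coeff_C_mul, coeff_C_mul, ← hprod]
    field_simp
  have h1 : ∀ i, (p : ℤ) ∣ f.coeff (i + 1) := fun i =>
    (intCast_mem_nonunits_iff hA hp _).mp (key i ▸ nonunits_mul_left (intCast_mem A _) (hi i))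
  refine ⟨fun h => ?_, h1⟩
  cases j with
  | zero => exact hj h
  | succ j => exact hj (h1 j)

/-- Roots outside `A` of an integer polynomial of degree `d` and leading coefficient `p` which is
constant modulo `p`: `x ^ d * p` is a unit of `A`. -/
theorem valuation_root_pow_mul (hA : A.LiesOverPrime p) (hp : p.Prime) (f : ℤ[X]) {d : ℕ}
    (hd : f.natDegree = d) (hlc : f.coeff d = p)
    (h0 : ¬ (p : ℤ) ∣ f.coeff 0) (h1 : ∀ i, (p : ℤ) ∣ f.coeff (i + 1))
    {x : QBar} (hx : (f.map (Int.castRingHom QBar)).eval x = 0) (hxA : x ∉ A) :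
    A.valuation (x ^ d * p) = 1 := by
  have hp0 : (p : QBar) ≠ 0 := Nat.cast_ne_zero.mpr hp.ne_zero
  have hx0 : x ≠ 0 := ne_zero_of_not_mem hxA
  cases d with
  | zero =>
    exact absurd (by rw [hlc]) h0
  | succ d =>
    -- Write the higher coefficients as multiples of `p`, the top one being `p` itself.
    choose e he using h1
    have he1 : e d = 1 := by
      have := he d
      rw [hlc] at this
      exact (mul_eq_left₀ (Int.natCast_ne_zero.mpr hp.ne_zero)).mp this.symm
    have hsum : (f.coeff 0 : QBar) +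
        ∑ i ∈ Finset.range (d + 1), (f.coeff (i + 1) : QBar) * x ^ (i + 1) = 0 := by
      have hdeg : (f.map (Int.castRingHom QBar)).natDegree = d + 1 := by
        rw [natDegree_map_eq_of_injective (by exact Int.cast_injective), hd]
      rw [eval_eq_sum_range, hdeg, Finset.sum_range_succ'] at hx
      simp only [coeff_map, eq_intCast, pow_zero, mul_one] at hx
      rw [add_comm]; exact hx
    have hu : (f.coeff 0 : QBar) / (x ^ (d + 1) * p) =
        -1 - ∑ i ∈ Finset.range d, (e i : QBar) * (x ^ (i + 1) / x ^ (d + 1)) := by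
      rw [Finset.sum_range_succ] at hsum
      simp only [he, he1, Int.cast_mul, Int.cast_natCast, mul_one] at hsum
      simp only [← mul_div_assoc, ← Finset.sum_div]
      simp only [mul_assoc, ← Finset.mul_sum] at hsum
      field_simp
      linear_combination hsum
    -- Dividing by `x ^ d * p`, the lower terms are small as `x⁻¹` is in the maximal ideal.
    have hnu : ∑ i ∈ Finset.range d, (e i : QBar) * (x ^ (i + 1) / x ^ (d + 1)) ∈ A.nonunits := by
      refine Finset.sum_induction _ (· ∈ A.nonunits) (fun _ _ => nonunits_add) ?_ ?_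
      · rw [ValuationSubring.mem_nonunits_iff]; simp
      · intro i hi
        refine nonunits_mul_left (intCast_mem A _) ?_
        obtain ⟨k, hk⟩ : ∃ k, d + 1 = i + 1 + (k + 1) :=
          ⟨d - i - 1, by have := Finset.mem_range.mp hi; omega⟩
        rw [hk, pow_add x (i + 1) (k + 1), div_mul_eq_div_div, div_self (pow_ne_zero _ hx0),
          one_div, ← inv_pow, pow_succ]
        exact nonunits_mul_left (pow_mem (inv_mem_of_not_mem hxA) k) (inv_mem_nonunits hxA)
    -- So `f(0) / (x ^ d * p)` is a unit, and so is `f(0)`.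
    have h2 : A.valuation ((f.coeff 0 : QBar) / (x ^ (d + 1) * p)) = 1 := by
      rw [hu, sub_eq_add_neg,
        A.valuation.map_add_eq_of_lt_left (by simpa [ValuationSubring.mem_nonunits_iff] using hnu)]
      simp
    have h3 : A.valuation (f.coeff 0 : QBar) = 1 := by
      apply le_antisymm ((A.valuation_le_one_iff _).mpr (intCast_mem A _))
      apply le_of_not_gt
      rw [← ValuationSubring.mem_nonunits_iff, intCast_mem_nonunits_iff hA hp]
      exact h0
    rw [map_div₀, h3, one_div, inv_eq_one] at h2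
    exact h2

/-- The product over `m` roots cannot be rational unless the degree divides `m`. -/
theorem dvd_of_valuation_ratCast_pow_mul (hA : A.LiesOverPrime p) (hp : p.Prime) (r : ℚ)
    {d m : ℕ} (hr : A.valuation ((r : QBar) ^ d * (p : QBar) ^ m) = 1) : d ∣ m := by
  have : Fact p.Prime := ⟨hp⟩
  set u : ℚ := r ^ d * (p : ℚ) ^ m with hu
  have hu' : (u : QBar) = (r : QBar) ^ d * (p : QBar) ^ m := by simp [hu]
  rw [← hu'] at hr
  have hu0 : u ≠ 0 := fun h => by simp [h] at hr
  have hr0 : r ≠ 0 ∨ d = 0 := by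
    by_contra h
    simp only [not_or, not_not] at h
    exact hu0 (by rw [hu, h.1, zero_pow h.2, zero_mul])
  have h1 : ¬ p ∣ u.den := (ratCast_mem_iff hA hp u).mp ((A.valuation_le_one_iff _).mp hr.le)
  have h2 : ¬ (p : ℤ) ∣ u.num := fun h => by
    have hn : A.valuation (u.num : QBar) < 1 := by
      rw [← ValuationSubring.mem_nonunits_iff, intCast_mem_nonunits_iff hA hp]; exact h
    have e : (u.num : QBar) = (u : QBar) * (u.den : QBar) := by
      rw [Rat.cast_def, div_mul_cancel₀ _ (Nat.cast_ne_zero.mpr u.den_nz)]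
    rw [e, map_mul, hr, one_mul, ← ValuationSubring.mem_nonunits_iff,
      natCast_mem_nonunits_iff hA hp] at hn
    exact h1 hn
  have hv : padicValRat p u = 0 := by
    rw [padicValRat, padicValInt.eq_zero_of_not_dvd h2, padicValNat.eq_zero_of_not_dvd h1]
    simp
  rcases hr0 with hr0 | hd0
  · rw [hu, padicValRat.mul (pow_ne_zero _ hr0)
      (pow_ne_zero _ (Nat.cast_ne_zero.mpr hp.ne_zero)), padicValRat.pow, padicValRat.pow,
      padicValRat.self hp.one_lt, mul_one] at hv
    exact Int.natCast_dvd_natCast.mp ⟨-padicValRat p r, by linear_combination hv⟩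
  · subst hd0
    rw [hu, pow_zero, one_mul, padicValRat.pow, padicValRat.self hp.one_lt, mul_one] at hv
    exact ⟨0, by simpa using hv⟩

variable (W : WeierstrassCurve ℤ) [(W.map (Int.castRingHom ℚ)).IsElliptic]

/-- The points of an integral equation over `QBar`, as in the statements. -/
abbrev PointQBar : Type := ((W.map (Int.castRingHom ℚ))⁄(AlgebraicClosure ℚ)).Point

omit [(W.map (Int.castRingHom ℚ)).IsElliptic] in
theorem preΨ'_baseChange (n : ℕ) :
    ((W.map (Int.castRingHom ℚ))⁄(AlgebraicClosure ℚ)).preΨ' n =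
      (W.preΨ' n).map (Int.castRingHom QBar) := by
  show ((W.map _).map _).preΨ' n = _
  rw [WeierstrassCurve.map_map, WeierstrassCurve.map_preΨ',
    RingHom.eq_intCast' ((algebraMap ℚ (AlgebraicClosure ℚ)).comp (Int.castRingHom ℚ))]

theorem eval_preΨ'_eq_zero_iff {n : ℕ} (hn : Odd n) {x y : QBar}
    (h : ((W.map (Int.castRingHom ℚ))⁄(AlgebraicClosure ℚ)).toAffine.Nonsingular x y) :
    ((W.preΨ' n).map (Int.castRingHom QBar)).eval x = 0 ↔
      (n • Affine.Point.some x y h : PointQBar W) = 0 := by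
  rw [Fermat.Agent.EC.Torsion.nsmul_some_eq_zero_iff, WeierstrassCurve.ΨSq_ofNat,
    if_neg (Nat.not_even_iff_odd.mpr hn), mul_one, eval_pow, pow_eq_zero_iff two_ne_zero,
    preΨ'_baseChange]

/-- If all `p`-torsion lies in the kernel of reduction then `|x| ^ ((p²-1)/2) = |p|⁻¹` for all
nonzero `p`-torsion points. -/
theorem valuation_pow_mul_of_forall_inE1 (hA : A.LiesOverPrime p) (hp : p.Prime) (hp2 : p ≠ 2)
    (hW : ¬ ((p : ℤ) ∣ W.c₄ ∧ (p : ℤ) ∣ W.Δ))
    (hall : ∀ P : PointQBar W, p • P = 0 → InE1 A P)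
    {x y : QBar} (h : ((W.map (Int.castRingHom ℚ))⁄(AlgebraicClosure ℚ)).toAffine.Nonsingular x y)
    (hP : (p • Affine.Point.some x y h : PointQBar W) = 0) :
    A.valuation (x ^ ((p ^ 2 - 1) / 2) * p) = 1 := by
  have hodd : Odd p := hp.odd_of_ne_two hp2
  have hne : ¬ Even p := Nat.not_even_iff_odd.mpr hodd
  have hpZ : (p : ℤ) ≠ 0 := Int.natCast_ne_zero.mpr hp.ne_zero
  have hroots : ∀ x : QBar, ((W.preΨ' p).map (Int.castRingHom QBar)).eval x = 0 → x ∉ A := by
    intro x hx
    obtain ⟨y, hy⟩ := Fermat.Agent.EC.Torsion.exists_equation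
      ((W.map (Int.castRingHom ℚ))⁄(AlgebraicClosure ℚ)).toAffine x
    have hns := Affine.equation_iff_nonsingular.mp hy
    exact hall _ ((eval_preΨ'_eq_zero_iff W hodd hns).mp hx)
  obtain ⟨h0, h1⟩ := dvd_coeff_of_roots_notMem hA hp _
    (exists_not_dvd_coeff_preΨ' W hp hp2 hW hodd) hroots
  have hdeg := W.natDegree_preΨ' (n := p) hpZ
  have hlc := W.coeff_preΨ' p
  rw [if_neg hne] at hdeg hlc
  rw [if_neg hne] at hlc
  exact valuation_root_pow_mul hA hp _ hdeg hlc h0 h1
    ((eval_preΨ'_eq_zero_iff W hodd h).mpr hP) (hall _ hP)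

omit [(W.map (Int.castRingHom ℚ)).IsElliptic] in
/-- The abscissa of a point, `1` at the origin. -/
private noncomputable def xOrOne : PointQBar W → QBar
  | .zero => 1
  | .some x _ _ => x

omit [(W.map (Int.castRingHom ℚ)).IsElliptic] in
open Classical in
/-- The product of the abscissae of the nonzero points of a Galois stable subgroup is fixed by
Galois. -/
private theorem prod_xOrOne_fixed {N : Submodule (ZMod p) (Submodule.torsionBy ℤ (PointQBar W) p)}
    [Fintype N] (hN : Affine.Point.IsGaloisStable ℚ N) (σ : GQ) :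
    σ (∏ P ∈ Finset.univ.erase (0 : N),
      xOrOne W ((P : Submodule.torsionBy ℤ (PointQBar W) p) : PointQBar W)) =
    ∏ P ∈ Finset.univ.erase (0 : N),
      xOrOne W ((P : Submodule.torsionBy ℤ (PointQBar W) p) : PointQBar W) := by
  rw [map_prod]
  have hx : ∀ Q : PointQBar W, σ (xOrOne W Q) = xOrOne W (σ • Q) := by
    intro Q
    match Q with
    | .zero => exact map_one σ
    | .some x y h => rfl
  refine Finset.prod_bij (fun P _ => (⟨σ • (P : Submodule.torsionBy ℤ (PointQBar W) p),
    hN σ _ P.2⟩ : N)) ?_ ?_ ?_ ?_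
  · intro P hP
    refine Finset.mem_erase.mpr ⟨?_, Finset.mem_univ _⟩
    intro h
    have h1 : σ • (P : Submodule.torsionBy ℤ (PointQBar W) p) = 0 := congrArg Subtype.val h
    rw [← smul_zero σ, smul_left_cancel_iff] at h1
    exact Finset.ne_of_mem_erase hP (Subtype.ext h1)
  · intro P _ P' _ h
    exact Subtype.ext (smul_left_cancel σ (congrArg Subtype.val h))
  · intro P hP
    refine ⟨⟨σ⁻¹ • (P : Submodule.torsionBy ℤ (PointQBar W) p), hN σ⁻¹ _ P.2⟩, ?_,
      Subtype.ext (smul_inv_smul σ _)⟩
    refine Finset.mem_erase.mpr ⟨?_, Finset.mem_univ _⟩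
    intro h
    have h1 : σ⁻¹ • (P : Submodule.torsionBy ℤ (PointQBar W) p) = 0 := congrArg Subtype.val h
    rw [← smul_zero σ⁻¹, smul_left_cancel_iff] at h1
    exact Finset.ne_of_mem_erase hP (Subtype.ext h1)
  · intro P _
    exact hx _

/-- A proper nontrivial subgroup of `E[p]` has order `p`. -/
private theorem natCard_eq_prime (hp : p.Prime)
    {N : Submodule (ZMod p) (Submodule.torsionBy ℤ (PointQBar W) p)} (hNb : N ≠ ⊥) (hNt : N ≠ ⊤) :
    Nat.card N = p := by
  have hcard := Fermat.Agent.EC.Torsion.natCard_torsionBy_algebraicClosureRat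
    (W.map (Int.castRingHom ℚ)) hp.ne_zero
  have : Finite (Submodule.torsionBy ℤ (PointQBar W) p) :=
    Nat.finite_of_card_ne_zero (by rw [hcard]; exact pow_ne_zero 2 hp.ne_zero)
  have hN1 : Nat.card N ≠ 1 := by
    intro h1
    have := (Nat.card_eq_one_iff_unique.mp h1).1
    exact hNb (Submodule.eq_bot_iff _ |>.mpr fun x hx =>
      congrArg Subtype.val (Subsingleton.elim (⟨x, hx⟩ : N) 0))
  have hN2 : Nat.card N ≠ p ^ 2 := by
    intro h2
    have h3 := AddSubgroup.eq_top_of_card_eq N.toAddSubgroup (h2.trans hcard.symm)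
    exact hNt (Submodule.toAddSubgroup_injective (h3.trans Submodule.top_toAddSubgroup.symm))
  have hN3 : Nat.card N ∣ p ^ 2 := hcard ▸ AddSubgroup.card_addSubgroup_dvd_card N.toAddSubgroup
  obtain ⟨i, hi, hNi⟩ := (Nat.dvd_prime_pow hp).mp hN3
  have hi1 : i = 1 := by
    rcases Nat.lt_or_ge i 1 with h | h
    · exact absurd (by rw [hNi, Nat.lt_one_iff.mp h, pow_zero]) hN1
    · rcases Nat.lt_or_ge i 2 with h' | h'
      · omega
      · exact absurd (by rw [hNi, le_antisymm hi h']) hN2
  rw [hNi, hi1, pow_one]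

/-- If all `p`-torsion lies in the kernel of reduction at a semistable place over the odd prime
`p`, then `E[p]` has no proper nontrivial Galois stable subgroup. -/
theorem eq_bot_or_top_of_forall_inE1 (hA : A.LiesOverPrime p) (hp : p.Prime) (hp2 : p ≠ 2)
    (hW : ¬ ((p : ℤ) ∣ W.c₄ ∧ (p : ℤ) ∣ W.Δ))
    (hall : ∀ P : PointQBar W, p • P = 0 → InE1 A P)
    (N : Submodule (ZMod p) (Submodule.torsionBy ℤ (PointQBar W) p))
    (hN : Affine.Point.IsGaloisStable ℚ N) : N = ⊥ ∨ N = ⊤ := by
  classical
  by_contra hne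
  simp only [not_or] at hne
  have hp0 : p ≠ 0 := hp.ne_zero
  have hcard := Fermat.Agent.EC.Torsion.natCard_torsionBy_algebraicClosureRat
    (W.map (Int.castRingHom ℚ)) hp0
  have : Finite (Submodule.torsionBy ℤ (PointQBar W) p) :=
    Nat.finite_of_card_ne_zero (by rw [hcard]; exact pow_ne_zero 2 hp0)
  have := Fintype.ofFinite N
  set S : Finset N := Finset.univ.erase 0 with hS
  set d := (p ^ 2 - 1) / 2 with hd
  -- each nonzero point has `|x| ^ d = |p|⁻¹`
  have hval : ∀ P ∈ S, A.valuation (xOrOne W ((P : Submodule.torsionBy ℤ (PointQBar W) p) :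
      PointQBar W) ^ d * p) = 1 := by
    intro P hP
    have hP0 : ((P : Submodule.torsionBy ℤ (PointQBar W) p) : PointQBar W) ≠ 0 := by
      have := Finset.ne_of_mem_erase hP
      exact fun h => this (Subtype.ext (Subtype.ext h))
    have hpP : p • ((P : Submodule.torsionBy ℤ (PointQBar W) p) : PointQBar W) = 0 := by
      rw [← natCast_zsmul]
      exact (Submodule.mem_torsionBy_iff _ _).mp
        (P : Submodule.torsionBy ℤ (PointQBar W) p).2
    generalize ((P : Submodule.torsionBy ℤ (PointQBar W) p) : PointQBar W) = Q at hP0 hpP ⊢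
    match Q with
    | .zero => exact absurd rfl hP0
    | .some x y h => exact valuation_pow_mul_of_forall_inE1 W hA hp hp2 hW hall h hpP
  -- so their product is a rational `r` with `|r| ^ d = |p| ^ (-#S)`, whence `d ∣ #S = p - 1 < d`
  set e : QBar := ∏ P ∈ S, xOrOne W ((P : Submodule.torsionBy ℤ (PointQBar W) p) : PointQBar W)
    with he
  have hfix : ∀ σ : GQ, σ e = e := fun σ => prod_xOrOne_fixed W hN σ
  obtain ⟨r, hr⟩ : ∃ r : ℚ, algebraMap ℚ QBar r = e :=
    IntermediateField.mem_bot.mp ((InfiniteGalois.mem_bot_iff_fixed e).mpr hfix)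
  have hr' : (r : QBar) = e := by rw [← hr]; exact (eq_ratCast (algebraMap ℚ QBar) r).symm
  have hev : A.valuation ((r : QBar) ^ d * (p : QBar) ^ S.card) = 1 := by
    rw [hr', he, ← Finset.prod_pow, ← Finset.prod_const, ← Finset.prod_mul_distrib, map_prod]
    exact Finset.prod_eq_one hval
  have hdvd := dvd_of_valuation_ratCast_pow_mul hA hp r hev
  have hScard : S.card + 1 = Nat.card N := by
    rw [hS, Finset.card_erase_add_one (Finset.mem_univ _), Finset.card_univ,
      Nat.card_eq_fintype_card]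
  have hNi : Nat.card N = p := natCard_eq_prime W hp hne.1 hne.2
  have hp3 : 3 ≤ p := by have := hp.two_le; omega
  have hlt : S.card < d := by
    have : 3 * p ≤ p ^ 2 := by rw [sq]; exact Nat.mul_le_mul_right p hp3
    omega
  have := Nat.le_of_dvd (by omega) hdvd
  omega

end Fermat.Agent.EC.AtP
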