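import Fermat.Agent.EC.AtP.NodeGalois
import Fermat.Agent.EC.AtP.Fold

/-!
# `2`-adic valuations of abscissae on `y² + xy = x³ + a₂ x² + a₄ x`

The addition and duplication identities for the abscissae (`addX_mul_subX`, `addX_double`), and
their valuation forms: they fold the multiples of a valuation modulo twice that of `a₄`
(`padicValRat_double`, `padicValRat_step`). Used for the Frey curve in `EC/AtP/FreyTwoAdic`.
-/

set_option autoImplicit false

namespace Fermat.Agent.EC.AtP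

open WeierstrassCurve Fermat.Agent.Arith Fermat.Agent.EC.Reduction

/-! ## Identities between abscissae -/

section Identities

variable {F : Type*} [Field F] [DecidableEq F] {W : Affine F} {x₁ y₁ x₂ y₂ : F}

/-- `x(P + Q) · x(P - Q)` for a curve `y² + xy = x³ + a₂x² + a₄x`. -/
theorem addX_mul_subX (h1 : W.a₁ = 1) (h3 : W.a₃ = 0) (h6 : W.a₆ = 0)
    (e₁ : W.Equation x₁ y₁) (e₂ : W.Equation x₂ y₂) (hne : x₁ ≠ x₂) :
    W.addX x₁ x₂ (W.slope x₁ x₂ y₁ y₂) * W.addX x₁ x₂ (W.slope x₁ x₂ y₁ (W.negY x₂ y₂))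
      * (x₁ - x₂) ^ 2 = (x₁ * x₂ - W.a₄) ^ 2 := by
  have hd : x₁ - x₂ ≠ 0 := sub_ne_zero.mpr hne
  rw [Affine.equation_iff, h1, h3, h6] at e₁ e₂
  refine mul_right_cancel₀ (pow_ne_zero 2 hd) ?_
  have en : ∀ y, W.addX x₁ x₂ (W.slope x₁ x₂ y₁ y) * (x₁ - x₂) ^ 2 =
      (y₁ - y) ^ 2 + (y₁ - y) * (x₁ - x₂) - (W.a₂ + x₁ + x₂) * (x₁ - x₂) ^ 2 := by
    intro y
    rw [Affine.slope_of_X_ne hne, Affine.addX, h1]
    field_simp
    ring
  rw [show W.addX x₁ x₂ (W.slope x₁ x₂ y₁ y₂) * W.addX x₁ x₂ (W.slope x₁ x₂ y₁ (W.negY x₂ y₂))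
      * (x₁ - x₂) ^ 2 * (x₁ - x₂) ^ 2 =
      (W.addX x₁ x₂ (W.slope x₁ x₂ y₁ y₂) * (x₁ - x₂) ^ 2)
      * (W.addX x₁ x₂ (W.slope x₁ x₂ y₁ (W.negY x₂ y₂)) * (x₁ - x₂) ^ 2) by ring, en, en,
    Affine.negY, h1, h3]
  linear_combination
    (2 * (x₁ ^ 3 + W.a₂ * x₁ ^ 2 + W.a₄ * x₁) - 2 * (x₂ ^ 3 + W.a₂ * x₂ ^ 2 + W.a₄ * x₂)
        - x₂ ^ 2 + x₁ * x₂ - 2 * (W.a₂ + x₁ + x₂) * (x₁ - x₂) ^ 2
        + (y₁ ^ 2 + x₁ * y₁ - (x₁ ^ 3 + W.a₂ * x₁ ^ 2 + W.a₄ * x₁))
        - 2 * (y₂ ^ 2 + x₂ * y₂ - (x₂ ^ 3 + W.a₂ * x₂ ^ 2 + W.a₄ * x₂))) * e₁ +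
    (2 * (x₂ ^ 3 + W.a₂ * x₂ ^ 2 + W.a₄ * x₂) - 2 * (x₁ ^ 3 + W.a₂ * x₁ ^ 2 + W.a₄ * x₁)
        - x₁ ^ 2 + x₁ * x₂ - 2 * (W.a₂ + x₁ + x₂) * (x₁ - x₂) ^ 2
        + (y₂ ^ 2 + x₂ * y₂ - (x₂ ^ 3 + W.a₂ * x₂ ^ 2 + W.a₄ * x₂))) * e₂

/-- The duplication formula for a curve `y² + xy = x³ + a₂x² + a₄x`. -/
theorem addX_double (h1 : W.a₁ = 1) (h3 : W.a₃ = 0) (h6 : W.a₆ = 0)
    (e : W.Equation x₁ y₁) (hne : y₁ ≠ W.negY x₁ y₁) :
    W.addX x₁ x₁ (W.slope x₁ x₁ y₁ y₁) *
      (x₁ * (4 * x₁ ^ 2 + (1 + 4 * W.a₂) * x₁ + 4 * W.a₄)) = (x₁ ^ 2 - W.a₄) ^ 2 := by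
  have hD : y₁ - W.negY x₁ y₁ ≠ 0 := sub_ne_zero.mpr hne
  rw [Affine.equation_iff, h1, h3, h6] at e
  rw [show x₁ * (4 * x₁ ^ 2 + (1 + 4 * W.a₂) * x₁ + 4 * W.a₄) = (y₁ - W.negY x₁ y₁) ^ 2 by
      rw [Affine.negY, h1, h3]; linear_combination (-4) * e,
    Affine.slope_of_Y_ne rfl hne, Affine.addX, h1]
  field_simp
  rw [Affine.negY, h1, h3]
  linear_combination -(1 + 4 * W.a₂ + 8 * x₁) * e

end Identities

/-! ## Rational numbers at a place over `2` -/

section RatTwo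

variable {A : ValuationSubring QBar}

/-- A nonzero rational in the maximal ideal at a place over `2` has positive valuation. -/
theorem padicValRat_pos_of_mem_nonunits (hA : A.LiesOverPrime 2) {r : ℚ} (hr : r ≠ 0)
    (h : (r : QBar) ∈ A.nonunits) : 0 < padicValRat 2 r := by
  have hd : ¬ 2 ∣ r.den := (ratCast_mem_iff hA Nat.prime_two r).mp (mem_of_mem_nonunits h)
  have hn : ((2 : ℕ) : ℤ) ∣ r.num := by
    rw [← intCast_mem_nonunits_iff hA Nat.prime_two]
    have e : (r.num : QBar) = (r : QBar) * (r.den : QBar) := by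
      rw [Rat.cast_def, div_mul_cancel₀ _ (Nat.cast_ne_zero.mpr r.den_nz)]
    rw [e]; exact nonunits_mul_right h (natCast_mem A _)
  rw [padicValRat_def, padicValNat.eq_zero_of_not_dvd hd]
  have h0 : padicValInt 2 r.num ≠ 0 := fun h0 => by
    rcases padicValInt.eq_zero_iff.mp h0 with h | h | h
    · norm_num at h
    · exact hr (Rat.num_eq_zero.mp h)
    · exact h hn
  omega

/-- The residue of a rational number `2`-integral is `0` or `1`. -/
theorem res_ratCast_two (hA : A.LiesOverPrime 2) {r : ℚ} (h : (r : QBar) ∈ A) :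
    res A (r : QBar) = 0 ∨ res A (r : QBar) = 1 := by
  have hd : ¬ 2 ∣ r.den := (ratCast_mem_iff hA Nat.prime_two r).mp h
  have hdA : (r.den : QBar) ∈ A := natCast_mem A _
  have e : (r : QBar) * (r.den : QBar) = (r.num : QBar) := by
    rw [Rat.cast_def, div_mul_cancel₀ _ (Nat.cast_ne_zero.mpr r.den_nz)]
  have hden : res A (r.den : QBar) = 1 := by
    obtain ⟨k, hk⟩ := Nat.odd_iff.mpr (Nat.two_dvd_ne_zero.mp hd)
    rw [hk]; push_cast
    rw [res_add (mul_mem (ofNat_mem A 2) (natCast_mem A k)) (one_mem A), res_one,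
      res_eq_zero (nonunits_mul_right (y := (k : QBar)) (by simpa using! hA) (natCast_mem A k)),
      zero_add]
  have := congrArg (res A) e
  rw [res_mul h hdA, hden, mul_one] at this
  rw [this]
  rcases Int.even_or_odd r.num with ⟨k, hk⟩ | ⟨k, hk⟩
  · left; rw [hk]; push_cast
    rw [← two_mul]; exact res_eq_zero (nonunits_mul_right hA (intCast_mem A k))
  · right; rw [hk]; push_cast
    rw [res_add (mul_mem (ofNat_mem A 2) (intCast_mem A k)) (one_mem A), res_one,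
      res_eq_zero (nonunits_mul_right (y := (k : QBar)) (by simpa using! hA) (intCast_mem A k)),
      zero_add]

/-- `padicValRat` of a sum with a dominant term. -/
theorem padicValRat_sub_of_ne {p : ℕ} [Fact p.Prime] {u w : ℚ} (hu : u ≠ 0) (hw : w ≠ 0)
    (huw : padicValRat p u ≠ padicValRat p w) :
    padicValRat p (u - w) = min (padicValRat p u) (padicValRat p w) := by
  have h0 : u + -w ≠ 0 := fun h => huw (by rw [eq_neg_of_add_eq_zero_left h, neg_neg])
  rw [sub_eq_add_neg, padicValRat.add_eq_min h0 hu (neg_ne_zero.mpr hw) (by rwa [padicValRat.neg]),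
    padicValRat.neg]

/-- The valuation of a difference is at least the smaller valuation. -/
theorem le_padicValRat_sub {p : ℕ} [Fact p.Prime] {u w : ℚ} (huw : u ≠ w) :
    min (padicValRat p u) (padicValRat p w) ≤ padicValRat p (u - w) := by
  have := padicValRat.min_le_padicValRat_add (p := p) (q := u) (r := -w)
    (by rw [← sub_eq_add_neg]; exact sub_ne_zero.mpr huw)
  rwa [padicValRat.neg, ← sub_eq_add_neg] at this

end RatTwo

/-! ## The identities on valuations -/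

/-- The valuation form of the duplication formula. -/
theorem padicValRat_double {x x' b α : ℚ} (hx : x ≠ 0) (hx' : x' ≠ 0) (hα : α ≠ 0)
    (hb : padicValRat 2 b = 0) (hb0 : b ≠ 0) (ha : 0 < padicValRat 2 x)
    (ham : padicValRat 2 x < padicValRat 2 α) (hem : padicValRat 2 x' < padicValRat 2 α)
    (hid : x' * (x * (4 * x ^ 2 + b * x + 4 * α)) = (x ^ 2 - α) ^ 2) :
    FoldEq (padicValRat 2 α) (padicValRat 2 x') (2 * padicValRat 2 x) := by
  have : Fact (Nat.Prime 2) := ⟨Nat.prime_two⟩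
  set D := 4 * x ^ 2 + b * x + 4 * α with hD
  have h4 : padicValRat 2 (4 : ℚ) = 2 := by
    rw [show (4 : ℚ) = ((2 : ℕ) : ℚ) ^ 2 by norm_num, padicValRat.pow,
      padicValRat.self one_lt_two]
    norm_num
  -- The term `b x` dominates the denominator.
  have t1 : padicValRat 2 (b * x) = padicValRat 2 x := by rw [padicValRat.mul hb0 hx, hb, zero_add]
  have t2 : padicValRat 2 (4 * x ^ 2) = 2 + 2 * padicValRat 2 x := by
    rw [padicValRat.mul (by norm_num) (pow_ne_zero _ hx), h4, padicValRat.pow]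
    push_cast; ring
  have t3 : padicValRat 2 (4 * α) = 2 + padicValRat 2 α := by
    rw [padicValRat.mul (by norm_num) hα, h4]
  have s1 : b * x + 4 * x ^ 2 ≠ 0 := fun h0 => by
    have := congrArg (padicValRat 2) (eq_neg_of_add_eq_zero_left h0)
    rw [padicValRat.neg, t1, t2] at this
    omega
  have v1 : padicValRat 2 (b * x + 4 * x ^ 2) = padicValRat 2 x := by
    rw [padicValRat.add_eq_of_lt s1 (mul_ne_zero hb0 hx)
      (mul_ne_zero (by norm_num) (pow_ne_zero _ hx)) (by rw [t1, t2]; omega), t1]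
  have s2 : b * x + 4 * x ^ 2 + 4 * α ≠ 0 := fun h0 => by
    have := congrArg (padicValRat 2) (eq_neg_of_add_eq_zero_left h0)
    rw [padicValRat.neg, v1, t3] at this
    omega
  have e : D = b * x + 4 * x ^ 2 + 4 * α := by rw [hD]; ring
  have hD0 : D ≠ 0 := e ▸ s2
  have hDv : padicValRat 2 D = padicValRat 2 x := by
    rw [e, padicValRat.add_eq_of_lt s2 s1 (mul_ne_zero (by norm_num) hα)
      (by rw [v1, t3]; omega), v1]
  have hne : x ^ 2 - α ≠ 0 := fun h0 => by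
    rw [h0, zero_pow two_ne_zero] at hid
    exact mul_ne_zero hx' (mul_ne_zero hx hD0) hid
  -- Take valuations in the identity.
  have hval := congrArg (padicValRat 2) hid
  rw [padicValRat.mul hx' (mul_ne_zero hx hD0), padicValRat.mul hx hD0, hDv,
    padicValRat.pow] at hval
  push_cast at hval
  refine fold_double (l := padicValRat 2 (x ^ 2 - α)) hem ?_ ?_ (by omega)
  · intro hne'
    rw [padicValRat_sub_of_ne (pow_ne_zero _ hx) hα
      (by rw [padicValRat.pow]; exact_mod_cast hne'), padicValRat.pow]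
    norm_num
  · intro heq
    have := le_padicValRat_sub (p := 2) (sub_ne_zero.mp hne)
    rw [padicValRat.pow] at this
    push_cast at this
    omega

/-- The valuation form of the addition identity. -/
theorem padicValRat_step {x₁ x xm xp α : ℚ} (h1 : x₁ ≠ 0) (hx : x ≠ 0) (hm : xm ≠ 0)
    (hp : xp ≠ 0) (hne1 : x ≠ x₁) (hα : α ≠ 0) {q : ℤ}
    (a0 : 0 < padicValRat 2 x₁) (a1 : padicValRat 2 x₁ < padicValRat 2 α)
    (c0 : 0 < padicValRat 2 x) (c1 : padicValRat 2 x < padicValRat 2 α)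
    (d0 : 0 < padicValRat 2 xm) (d1 : padicValRat 2 xm < padicValRat 2 α)
    (e0 : 0 < padicValRat 2 xp) (e1 : padicValRat 2 xp < padicValRat 2 α)
    (hid : xp * xm * (x - x₁) ^ 2 = (x * x₁ - α) ^ 2)
    (hqc : FoldEq (padicValRat 2 α) (padicValRat 2 x) q)
    (hqd : FoldEq (padicValRat 2 α) (padicValRat 2 xm) (q - padicValRat 2 x₁)) :
    FoldEq (padicValRat 2 α) (padicValRat 2 xp) (q + padicValRat 2 x₁) := by
  have : Fact (Nat.Prime 2) := ⟨Nat.prime_two⟩
  have hd : x - x₁ ≠ 0 := sub_ne_zero.mpr hne1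
  have hne : x * x₁ - α ≠ 0 := fun h0 => by
    rw [h0, zero_pow two_ne_zero] at hid
    exact mul_ne_zero (mul_ne_zero hp hm) (pow_ne_zero 2 hd) hid
  have hval := congrArg (padicValRat 2) hid
  rw [padicValRat.mul (mul_ne_zero hp hm) (pow_ne_zero 2 hd), padicValRat.mul hp hm,
    padicValRat.pow, padicValRat.pow] at hval
  push_cast at hval
  refine fold_step (k := padicValRat 2 (x - x₁)) (l := padicValRat 2 (x * x₁ - α))
    a0 a1 c0 c1 d0 d1 e0 e1 ?_ ?_ ?_ ?_ (by omega) hqc hqd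
  · intro hne'
    rw [padicValRat_sub_of_ne hx h1 hne', min_comm]
  · intro heq
    have := le_padicValRat_sub (p := 2) hne1
    omega
  · intro hne'
    rw [padicValRat_sub_of_ne (mul_ne_zero hx h1) hα
      (by rw [padicValRat.mul hx h1, add_comm]; exact hne'), padicValRat.mul hx h1, add_comm]
  · intro heq
    have := le_padicValRat_sub (p := 2) (sub_ne_zero.mp hne)
    rw [padicValRat.mul hx h1] at this
    omega

end Fermat.Agent.EC.AtP
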