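import Fermat.Agent.EC.AtP.Line
import Fermat.Prelude.Def_FLTPrelim_CofixedLine
import Fermat.Agent.Arith.Minkowski

/-!
# Inertia on `E[p]` at a place over `p`, and reducible implies cofixed

`hasGaloisStableCofixedLine_of_reducible`: for an integral equation `W` semistable at the odd
prime `p` whose inertia preserves components, with no `p`-torsion in the kernels of reduction away
from `p` and no rational point of order `p`, a reducible `E[p]` has a Galois stable line on whose
quotient Galois acts trivially. `S13` applies it to the Frey curve. Let `N` be a stable line: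

1. Away from `p` inertia acts on `E[p]` with `(σ - 1) ^ 2 = 0`, so fixes `N` and the quotient
   (`deltaHom_deltaHom_eq_zero`, `sq_zero_stable`).
2. Over `p` either a proper subgroup contains all `σ x - x`, `σ` inertia, or no line is stable
   (`exists_proper_absorbing`, with `EC/AtP/Line`), so inertia fixes `N` or the quotient
   (`inertia_le_fixer_or_cofixer`).
3. If it fixed `N`, all inertia groups would, so by Minkowski (`Arith/Minkowski`) `N` would be
   rational, which is excluded (`not_inertia_le_fixer`).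
4. So all inertia groups fix the quotient, and by Minkowski again all of Galois does.
-/

set_option autoImplicit false

namespace Fermat.Agent.EC.AtP

open WeierstrassCurve Fermat.Agent.Arith Fermat.Agent.EC.Reduction
open scoped Pointwise

variable (W : WeierstrassCurve ℤ) [(W.map (Int.castRingHom ℚ)).IsElliptic] (p : ℕ)

/-! ## Torsion, the reduced curve and inertia -/

/-- `E[p]` over `QBar`. -/
abbrev TorsQBar : Type := Submodule.torsionBy ℤ (PointQBar W) p

variable {W p}

omit [(W.map (Int.castRingHom ℚ)).IsElliptic] in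
/-- Points of `E[p]` are killed by `p`. -/
theorem nsmul_coe_torsQBar (x : TorsQBar W p) : p • (x : PointQBar W) = 0 := by
  rw [← natCast_zsmul]
  exact (Submodule.mem_torsionBy_iff _ _).mp x.2

/-- The reduction of an integral equation at a place of `QBar`. -/
noncomputable abbrev redCurve (W : WeierstrassCurve ℤ) (A : ValuationSubring QBar) :
    Affine (IsLocalRing.ResidueField A) :=
  (W.map (Int.castRingHom (IsLocalRing.ResidueField A))).toAffine

omit [(W.map (Int.castRingHom ℚ)).IsElliptic] in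
/-- At every place of `ℚ̄` an integral model reduces to its reduced curve. -/
theorem reducesTo_qbar (A : ValuationSubring QBar) :
    ReducesTo A ((W.map (Int.castRingHom ℚ))⁄(AlgebraicClosure ℚ)).toAffine (redCurve W A) := by
  refine ⟨W.map (Int.castRingHom A), ?_, ?_⟩
  · show _ = (W.map _).map _
    rw [WeierstrassCurve.map_map, WeierstrassCurve.map_map,
      RingHom.eq_intCast' ((algebraMap ℚ (AlgebraicClosure ℚ)).comp (Int.castRingHom ℚ)),
      RingHom.eq_intCast' (A.subtype.comp (Int.castRingHom A))]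
  · rw [WeierstrassCurve.map_map,
      RingHom.eq_intCast' ((IsLocalRing.residue A).comp (Int.castRingHom A))]

/-- Inertia preserves `A` and fixes residues. -/
theorem res_inertia {A : ValuationSubring QBar} {σ : GQ} (hσ : σ ∈ A.inertiaSubgroupIn ℚ)
    {x : QBar} (hx : x ∈ A) : σ x ∈ A ∧ res A (σ x) = res A x := by
  have h := (mem_inertia_iff_forall_mem.mp hσ).2 x hx
  have h' : σ x ∈ A := by
    simpa using add_mem (mem_of_mem_nonunits h) hx
  exact ⟨h', sub_eq_zero.mp (by rw [← res_sub h' hx, res_eq_zero h])⟩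

omit [(W.map (Int.castRingHom ℚ)).IsElliptic] in
/-- On points with nonsingular reduction, `σ • R - R` reduces to the origin for `σ` in inertia. -/
theorem smul_sub_inE1 {A : ValuationSubring QBar} {σ : GQ} (hσ : σ ∈ A.inertiaSubgroupIn ℚ)
    {R : PointQBar W} (hR : InE0 A (redCurve W A) R) : InE1 A (σ • R - R) := by
  classical
  have h := reducesTo_qbar (W := W) A
  match R with
  | .zero =>
    show InE1 A ((0 : PointQBar W) - (0 : PointQBar W))
    rw [sub_zero]
    exact inE1_zero
  | .some x y hxy =>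
    refine (h.mem_E1).mp ?_
    by_cases hx : x ∈ A
    · have hy : y ∈ A := h.y_mem hxy.1 hx
      obtain ⟨hσx, hrx⟩ := res_inertia hσ hx
      obtain ⟨hσy, hry⟩ := res_inertia hσ hy
      have hns : (redCurve W A).Nonsingular (res A x) (res A y) :=
        ((inE0_some hxy).mp hR).resolve_left (not_not_intro hx)
      have hns' : (redCurve W A).Nonsingular (res A (σ x)) (res A (σ y)) := by rwa [hrx, hry]
      refine h.sub_mem_E1 (Or.inr hns') (Or.inr hns) ?_
      refine (redFun_some (x := σ x) (y := σ y) _ hσx hns').trans ?_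
      rw [redFun_some _ hx hns]
      simp only [hrx, hry]
    · refine h.E1.sub_mem ?_ hx
      intro hσx
      obtain ⟨hA, -⟩ := mem_inertia_iff_forall_mem.mp hσ
      apply hx
      have : σ x ∈ σ • A := hA.symm ▸ hσx
      exact (ValuationSubring.smul_mem_pointwise_smul_iff (g := σ)).mp this

/-! ## Subgroups of `E[p]` -/

section Proper

variable (hp : p.Prime)

include hp in
/-- In `E[p]` a nontrivial subgroup contained in a proper one is equal to it. -/
theorem subgroup_eq_of_le_of_ne_top {B C : AddSubgroup (TorsQBar W p)} (hB : B ≠ ⊥)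
    (hC : C ≠ ⊤) (hle : B ≤ C) : B = C := by
  have hcard := Fermat.Agent.EC.Torsion.natCard_torsionBy_algebraicClosureRat
    (W.map (Int.castRingHom ℚ)) hp.ne_zero
  have : Finite (TorsQBar W p) :=
    Nat.finite_of_card_ne_zero (hcard.trans_ne (pow_ne_zero 2 hp.ne_zero))
  obtain ⟨i, hi, hBi⟩ := (Nat.dvd_prime_pow hp).mp
    (hcard ▸ AddSubgroup.card_addSubgroup_dvd_card B)
  obtain ⟨j, hj, hCj⟩ := (Nat.dvd_prime_pow hp).mp
    (hcard ▸ AddSubgroup.card_addSubgroup_dvd_card C)
  have hi1 : 1 ≤ i := by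
    by_contra h
    exact hB (AddSubgroup.eq_bot_of_card_eq B (by rw [hBi, Nat.lt_one_iff.mp (not_le.mp h),
      pow_zero]))
  have hj1 : j ≤ 1 := by
    by_contra h
    exact hC (AddSubgroup.eq_top_of_card_eq C
      (by rw [hCj, le_antisymm hj (not_le.mp h)]; exact hcard.symm))
  refine AddSubgroup.eq_of_le_of_card_ge hle ?_
  rw [hBi, hCj]
  exact Nat.pow_le_pow_right hp.pos (by omega)

include hp in
/-- An endomorphism of `E[p]` with square zero that preserves a proper nonzero subgroup kills it
and has image inside it. -/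
theorem sq_zero_stable {N : AddSubgroup (TorsQBar W p)} (hNb : N ≠ ⊥) (hNt : N ≠ ⊤)
    (f : TorsQBar W p →+ TorsQBar W p) (hf : ∀ x, f (f x) = 0) (hN : ∀ x ∈ N, f x ∈ N) :
    (∀ x ∈ N, f x = 0) ∧ ∀ x, f x ∈ N := by
  have hk : ∀ x ∈ N, f x = 0 := by
    by_contra hall
    simp only [not_forall, exists_prop] at hall
    obtain ⟨x, hx, hfx⟩ := hall
    have hle : N ⊓ f.ker = N := by
      refine subgroup_eq_of_le_of_ne_top hp ?_ hNt inf_le_left
      intro h
      exact hfx ((AddSubgroup.eq_bot_iff_forall _).mp h (f x) ⟨hN x hx, hf x⟩)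
    exact hfx (hle.ge hx).2
  refine ⟨hk, fun x => ?_⟩
  by_cases hker : f.ker = ⊤
  · have h0 : f x = 0 := AddMonoidHom.mem_ker.mp (hker ▸ AddSubgroup.mem_top x)
    rw [h0]; exact N.zero_mem
  · have he := subgroup_eq_of_le_of_ne_top hp hNb hker
      (fun y hy => AddMonoidHom.mem_ker.mpr (hk y hy))
    rw [he]
    exact AddMonoidHom.mem_ker.mpr (hf x)

end Proper

/-! ## The inputs and step 1 -/

/-- `x ↦ σ • x - x` on `E[p]`. -/
noncomputable def deltaHom (σ : GQ) : TorsQBar W p →+ TorsQBar W p where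
  toFun x := σ • x - x
  map_zero' := by rw [smul_zero, sub_zero]
  map_add' x y := by rw [smul_add]; abel

/-- `σ` moves every point inside its component, for inertia `σ` at every place. -/
def InertiaPreservesComponent (W : WeierstrassCurve ℤ) : Prop :=
  ∀ (q : ℕ), q.Prime → ∀ A : ValuationSubring QBar, A.LiesOverPrime q →
    ∀ σ ∈ A.inertiaSubgroupIn ℚ, ∀ P : PointQBar W, InE0 A (redCurve W A) (σ • P - P)

/-- The kernel of reduction has no `p`-torsion away from `p`. -/
def E1TorsionFree (W : WeierstrassCurve ℤ) (p : ℕ) : Prop :=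
  ∀ (q : ℕ), q.Prime → q ≠ p → ∀ A : ValuationSubring QBar, A.LiesOverPrime q →
    ∀ P : PointQBar W, InE1 A P → p • P = 0 → P = 0

omit [(W.map (Int.castRingHom ℚ)).IsElliptic] in
/-- Away from `p`, inertia acts unipotently on `E[p]`. -/
theorem deltaHom_deltaHom_eq_zero {q : ℕ} (hq : q.Prime) (hqp : q ≠ p)
    (hcomp : InertiaPreservesComponent W) (hE1 : E1TorsionFree W p)
    {A : ValuationSubring QBar} (hA : A.LiesOverPrime q) {σ : GQ}
    (hσ : σ ∈ A.inertiaSubgroupIn ℚ) (x : TorsQBar W p) : deltaHom σ (deltaHom σ x) = 0 := by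
  apply Subtype.ext
  have h1 : InE1 A (σ • ((deltaHom σ x : TorsQBar W p) : PointQBar W)
      - ((deltaHom σ x : TorsQBar W p) : PointQBar W)) :=
    smul_sub_inE1 hσ (hcomp q hq A hA σ hσ x)
  exact hE1 q hq hqp A hA _ h1 (nsmul_coe_torsQBar (deltaHom σ (deltaHom σ x)))

/-! ## Step 2 at a place over `p` -/

/-- At a semistable place over `p`, either a proper subgroup of `E[p]` absorbs inertia, or no
proper nonzero subgroup of `E[p]` is Galois stable. -/
theorem exists_proper_absorbing (hp : p.Prime) (hp2 : p ≠ 2)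
    (hW : ¬ ((p : ℤ) ∣ W.c₄ ∧ (p : ℤ) ∣ W.Δ))
    (hcomp : InertiaPreservesComponent W) {A : ValuationSubring QBar} (hA : A.LiesOverPrime p) :
    (∃ C : AddSubgroup (TorsQBar W p), C ≠ ⊤ ∧
      ∀ σ ∈ A.inertiaSubgroupIn ℚ, ∀ x : TorsQBar W p, σ • x - x ∈ C) ∨
    ∀ N : Submodule (ZMod p) (TorsQBar W p), Affine.Point.IsGaloisStable ℚ N → N = ⊥ ∨ N = ⊤ := by
  classical
  have h := reducesTo_qbar (W := W) A
  set C₀ : AddSubgroup (TorsQBar W p) :=
    h.E0.comap (Submodule.subtype (Submodule.torsionBy ℤ (PointQBar W) p)).toAddMonoidHom with hC₀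
  set C₁ : AddSubgroup (TorsQBar W p) :=
    h.E1.comap (Submodule.subtype (Submodule.torsionBy ℤ (PointQBar W) p)).toAddMonoidHom with hC₁
  by_cases h0 : C₀ = ⊤
  · by_cases h1 : C₁ = ⊤
    · refine Or.inr fun N hN => eq_bot_or_top_of_forall_inE1 W hA hp hp2 hW (fun P hP => ?_) N hN
      have hP' : P ∈ Submodule.torsionBy ℤ (PointQBar W) p := by
        rw [Submodule.mem_torsionBy_iff, natCast_zsmul]; exact hP
      have : (⟨P, hP'⟩ : TorsQBar W p) ∈ C₁ := h1 ▸ AddSubgroup.mem_top _
      exact this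
    · refine Or.inl ⟨C₁, h1, fun σ hσ x => ?_⟩
      exact smul_sub_inE1 hσ
        (show InE0 A (redCurve W A) (x : PointQBar W) from
          (show x ∈ C₀ from h0 ▸ AddSubgroup.mem_top _))
  · exact Or.inl ⟨C₀, h0, fun σ hσ x => hcomp p hp A hA σ hσ x⟩

/-! ## Fixers and the passage to all of Galois -/

/-- The subgroup of `GQ` fixing a stable subgroup pointwise. -/
noncomputable def fixerOf (N : Submodule (ZMod p) (TorsQBar W p)) : Subgroup GQ where
  carrier := {σ | ∀ x ∈ N, σ • x = x}
  one_mem' x _ := one_smul _ x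
  mul_mem' {a b} ha hb x hx := by rw [mul_smul, hb x hx, ha x hx]
  inv_mem' {a} ha x hx := by rw [inv_smul_eq_iff, ha x hx]

/-- The subgroup of `GQ` acting trivially modulo a stable subgroup. -/
noncomputable def cofixerOf (N : Submodule (ZMod p) (TorsQBar W p))
    (_hN : Affine.Point.IsGaloisStable ℚ N) : Subgroup GQ where
  carrier := {σ | ∀ x : TorsQBar W p, σ • x - x ∈ N}
  one_mem' x := by rw [one_smul, sub_self]; exact N.zero_mem
  mul_mem' {a b} ha hb x := by
    have : (a * b) • x - x = (a • (b • x) - b • x) + (b • x - x) := by rw [mul_smul]; abel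
    rw [this]; exact N.add_mem (ha _) (hb x)
  inv_mem' {a} ha x := by
    have h := ha (a⁻¹ • x)
    rw [smul_inv_smul] at h
    rw [← neg_sub]
    exact N.neg_mem h

omit [(W.map (Int.castRingHom ℚ)).IsElliptic] in
/-- The fixer of a stable subgroup is normal. -/
theorem fixerOf_normal (N : Submodule (ZMod p) (TorsQBar W p))
    (hN : Affine.Point.IsGaloisStable ℚ N) : (fixerOf N).Normal := by
  refine ⟨fun σ hσ g x hx => ?_⟩
  rw [mul_smul, mul_smul, hσ _ (hN g⁻¹ x hx), smul_inv_smul]

omit [(W.map (Int.castRingHom ℚ)).IsElliptic] in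
/-- The cofixer of a stable subgroup is normal. -/
theorem cofixerOf_normal (N : Submodule (ZMod p) (TorsQBar W p))
    (hN : Affine.Point.IsGaloisStable ℚ N) : (cofixerOf N hN).Normal := by
  refine ⟨fun σ hσ g x => ?_⟩
  have := hN g _ (hσ (g⁻¹ • x))
  rw [smul_sub, smul_inv_smul] at this
  rwa [mul_smul, mul_smul]

/-- A subgroup containing all automorphisms which fix `E[p]` is open. -/
theorem isOpen_of_fixes (hp0 : p ≠ 0) (H : Subgroup GQ)
    (hH : ∀ σ : GQ, (∀ x : TorsQBar W p, σ • x = x) → σ ∈ H) : IsOpen (H : Set GQ) := by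
  obtain ⟨L, hLfin, hL⟩ :=
    Fermat.Agent.EC.Torsion.galoisFactorsThroughFiniteLevel_galoisRepModuleEnd
      (W.map (Int.castRingHom ℚ)) hp0
  refine Subgroup.isOpen_mono (fun σ hσ => hH σ fun x => ?_)
    (IntermediateField.fixingSubgroup_isOpen L)
  exact LinearMap.congr_fun
    (hL σ fun y hy => (IntermediateField.mem_fixingSubgroup_iff _ _).mp hσ y hy) x

/-- Over `p`, inertia fixes a stable line or its quotient. -/
private theorem inertia_le_fixer_or_cofixer (hp : p.Prime) (hp2 : p ≠ 2)
    (hW : ¬ ((p : ℤ) ∣ W.c₄ ∧ (p : ℤ) ∣ W.Δ)) (hcomp : InertiaPreservesComponent W)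
    {N : Submodule (ZMod p) (TorsQBar W p)} (hN : Affine.Point.IsGaloisStable ℚ N)
    (hNb : N ≠ ⊥) (hNt : N ≠ ⊤) {A : ValuationSubring QBar} (hA : A.LiesOverPrime p) :
    A.inertiaSubgroupIn ℚ ≤ fixerOf N ∨ A.inertiaSubgroupIn ℚ ≤ cofixerOf N hN := by
  rcases exists_proper_absorbing hp hp2 hW hcomp hA with ⟨C, hC, hCσ⟩ | h
  · by_cases hd : N.toAddSubgroup ⊓ C = ⊥
    · refine Or.inl fun σ hσ x hx => sub_eq_zero.mp ?_
      exact (AddSubgroup.eq_bot_iff_forall _).mp hd _
        ⟨N.toAddSubgroup.sub_mem (hN σ x hx) hx, hCσ σ hσ x⟩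
    · refine Or.inr fun σ hσ x => ?_
      have h2 := subgroup_eq_of_le_of_ne_top hp hd hC inf_le_right
      exact (h2.symm.le (hCσ σ hσ x)).1
  · rcases h N hN with h | h
    · exact absurd h hNb
    · exact absurd h hNt

/-- Inertia over `p` does not fix a stable line that inertia away from `p` fixes: the line would be
rational. -/
private theorem not_inertia_le_fixer (hp : p.Prime)
    (hnorat : ∀ P : PointQBar W, p • P = 0 → (∀ σ : GQ, σ • P = P) → P = 0)
    {N : Submodule (ZMod p) (TorsQBar W p)} (hN : Affine.Point.IsGaloisStable ℚ N) (hNb : N ≠ ⊥)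
    (haway : ∀ q, q.Prime → q ≠ p → ∀ A : ValuationSubring QBar, A.LiesOverPrime q →
      A.inertiaSubgroupIn ℚ ≤ fixerOf N ⊓ cofixerOf N hN) :
    ¬ ∃ A : ValuationSubring QBar, A.LiesOverPrime p ∧
      A.inertiaSubgroupIn ℚ ≤ fixerOf N := by
  rintro ⟨A, hA, hfix⟩
  have := fixerOf_normal N hN
  have hall : fixerOf N = ⊤ := by
    refine eq_top_of_inertia_le _ (isOpen_of_fixes (W := W) hp.ne_zero _ fun σ hσ x _ => hσ x) ?_
    intro q hq B hB
    by_cases hqp : q = p
    · subst hqp
      obtain ⟨g, rfl⟩ := exists_smul_eq hA hB hq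
      intro σ hσ
      have h' : g * (g⁻¹ * σ * g) * g⁻¹ ∈ (g • A).inertiaSubgroupIn ℚ := by group; exact hσ
      have := (fixerOf_normal N hN).conj_mem _ (hfix (mem_inertia_smul_iff.mp h')) g
      group at this
      exact this
    · exact (haway q hq hqp B hB).trans inf_le_left
  obtain ⟨x, hx, hx0⟩ := Submodule.exists_mem_ne_zero_of_ne_bot hNb
  refine hx0 (Subtype.ext (hnorat x (nsmul_coe_torsQBar x) fun σ => ?_))
  exact congrArg Subtype.val ((hall ▸ Subgroup.mem_top σ : σ ∈ fixerOf N) x hx)

/-! ## Reducible implies cofixed -/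

/-- **Reducible implies cofixed**: a reducible `E[p]` has a Galois stable cofixed line, given the
inputs on components and kernels of reduction and no rational point of order `p`. -/
theorem hasGaloisStableCofixedLine_of_reducible (hp : p.Prime) (hp2 : p ≠ 2)
    (hW : ¬ ((p : ℤ) ∣ W.c₄ ∧ (p : ℤ) ∣ W.Δ))
    (hcomp : InertiaPreservesComponent W) (hE1 : E1TorsionFree W p)
    (hnorat : ∀ P : PointQBar W, p • P = 0 → (∀ σ : GQ, σ • P = P) → P = 0)
    (hred : ¬ Affine.Point.GaloisRepIsIrreducible (K := AlgebraicClosure ℚ) ℚ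
      (W.map (Int.castRingHom ℚ)) p) :
    Affine.Point.HasGaloisStableCofixedLine (K := AlgebraicClosure ℚ) ℚ
      (W.map (Int.castRingHom ℚ)) p := by
  have hcard := Fermat.Agent.EC.Torsion.natCard_torsionBy_algebraicClosureRat
    (W.map (Int.castRingHom ℚ)) hp.ne_zero
  have : Finite (TorsQBar W p) :=
    Nat.finite_of_card_ne_zero (hcard.trans_ne (pow_ne_zero 2 hp.ne_zero))
  have hnt : Nontrivial (TorsQBar W p) := Finite.one_lt_card_iff_nontrivial.mp
    (by rw [hcard]; exact Nat.one_lt_pow two_ne_zero hp.one_lt)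
  obtain ⟨N, hN, hNb, hNt⟩ : ∃ N : Submodule (ZMod p) (TorsQBar W p),
      Affine.Point.IsGaloisStable ℚ N ∧ N ≠ ⊥ ∧ N ≠ ⊤ := by
    by_contra h
    refine hred ⟨hnt, fun N hN => ?_⟩
    by_contra h'
    simp only [not_or] at h'
    exact h ⟨N, hN, h'⟩
  refine ⟨N, hN, hNb, hNt, ?_⟩
  have hb : N.toAddSubgroup ≠ ⊥ := fun h =>
    hNb (Submodule.toAddSubgroup_injective (h.trans Submodule.bot_toAddSubgroup.symm))
  have ht : N.toAddSubgroup ≠ ⊤ := fun h =>
    hNt (Submodule.toAddSubgroup_injective (h.trans Submodule.top_toAddSubgroup.symm))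
  -- Step 1: away from `p` inertia is unipotent of square zero, so fixes `N` and the quotient.
  have haway : ∀ q, q.Prime → q ≠ p → ∀ A : ValuationSubring QBar, A.LiesOverPrime q →
      A.inertiaSubgroupIn ℚ ≤ fixerOf N ⊓ cofixerOf N hN := by
    intro q hq hqp A hA σ hσ
    obtain ⟨h1, h2⟩ := sq_zero_stable hp hb ht (deltaHom σ)
      (deltaHom_deltaHom_eq_zero hq hqp hcomp hE1 hA hσ)
      (fun x hx => N.toAddSubgroup.sub_mem (hN σ x hx) hx)
    exact ⟨fun x hx => sub_eq_zero.mp (h1 x hx), h2⟩
  -- Steps 2 and 3: over `p` inertia fixes `N` or the quotient; the former makes `N` rational.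
  have hnf := not_inertia_le_fixer hp hnorat hN hNb haway
  have := cofixerOf_normal N hN
  -- Step 4: so the cofixer contains all inertia groups and is everything, by Minkowski.
  have hall : cofixerOf N hN = ⊤ := by
    refine eq_top_of_inertia_le _ (isOpen_of_fixes (W := W) hp.ne_zero _ fun σ
        (hσ : ∀ x : TorsQBar W p, σ • x = x) x => ?_) ?_
    · rw [hσ x, sub_self]; exact N.zero_mem
    · intro q hq B hB
      by_cases hqp : q = p
      · subst hqp
        rcases inertia_le_fixer_or_cofixer hp hp2 hW hcomp hN hNb hNt hB with h | h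
        · exact absurd ⟨B, hB, h⟩ hnf
        · exact h
      · exact (haway q hq hqp B hB).trans inf_le_right
  intro σ x
  exact (hall ▸ Subgroup.mem_top σ : σ ∈ cofixerOf N hN) x

end Fermat.Agent.EC.AtP
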